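import Mathlib

/-!
# Row LT, tower A2, station A2.03.1.1.10, leaf CX.04 WEYL -- the Gaussian core (helper894)

OFF-MAIN.  Mathlib only.

* `gaussC894`: `∫_ℂ exp(-b v v̄ + u v + w v̄) dv = (π / b) exp(u w / b)`, `b > 0`, `u w : ℂ`.
* `gaussC2_894`: the two-variable Gaussian integral in split coordinates.
* `splitMap894`: the change of variables `y ↦ (y₁ + ω₁ y₂, y₁ + ω₂ y₂)`.
-/

set_option autoImplicit false

open MeasureTheory Complex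
open scoped ComplexConjugate Real

noncomputable section

namespace Fermat.Agent.LT.A2.H894

/-- The one-dimensional building block. -/
theorem gaussR894 (b : ℝ) (hb : 0 < b) (p : ℂ) :
    ∫ x : ℝ, cexp (-(b : ℂ) * (x : ℂ) ^ 2 + p * (x : ℂ))
      = ((π : ℂ) / (b : ℂ)) ^ (1 / 2 : ℂ) * cexp (p ^ 2 / (4 * (b : ℂ))) := by
  have h : (-(b : ℂ)).re < 0 := by simpa using hb
  have := integral_cexp_quadratic h p 0
  simp only [add_zero, zero_sub, neg_neg] at this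
  rw [this]
  congr 2
  rw [mul_neg, div_neg, neg_neg]

/-- `∫_ℂ exp(-b v v̄ + u v + w v̄) dv = (π / b) exp(u w / b)`. -/
theorem gaussC894 (b : ℝ) (hb : 0 < b) (u w : ℂ) :
    ∫ v : ℂ, cexp (-(b : ℂ) * (v * conj v) + u * v + w * conj v)
      = ((π : ℂ) / (b : ℂ)) * cexp (u * w / (b : ℂ)) := by
  have hmp := Complex.volume_preserving_equiv_real_prod.symm
  rw [← hmp.integral_comp' (g := fun v : ℂ => cexp (-(b : ℂ) * (v * conj v) + u * v + w * conj v))]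
  have hpt : ∀ q : ℝ × ℝ,
      cexp (-(b : ℂ) * (Complex.measurableEquivRealProd.symm q
          * conj (Complex.measurableEquivRealProd.symm q))
        + u * Complex.measurableEquivRealProd.symm q
        + w * conj (Complex.measurableEquivRealProd.symm q))
      = cexp (-(b : ℂ) * (q.1 : ℂ) ^ 2 + (u + w) * (q.1 : ℂ))
        * cexp (-(b : ℂ) * (q.2 : ℂ) ^ 2 + (Complex.I * (u - w)) * (q.2 : ℂ)) := by
    intro q
    rw [← Complex.exp_add]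
    congr 1
    have h1 : (Complex.measurableEquivRealProd.symm q : ℂ) = (q.1 : ℂ) + (q.2 : ℂ) * Complex.I := by
      apply Complex.ext <;> simp [Complex.measurableEquivRealProd]
    have h2 : conj (Complex.measurableEquivRealProd.symm q : ℂ)
        = (q.1 : ℂ) - (q.2 : ℂ) * Complex.I := by
      rw [h1]
      simp [sub_eq_add_neg]
    rw [h2, h1]
    have hI : Complex.I ^ 2 = -1 := Complex.I_sq
    linear_combination ((b : ℂ) * (q.2 : ℂ) ^ 2) * hI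
  simp_rw [hpt]
  rw [Measure.volume_eq_prod,
    integral_prod_mul (fun x : ℝ => cexp (-(b : ℂ) * (x : ℂ) ^ 2 + (u + w) * (x : ℂ)))
      (fun y : ℝ => cexp (-(b : ℂ) * (y : ℂ) ^ 2 + (Complex.I * (u - w)) * (y : ℂ))),
    gaussR894 b hb, gaussR894 b hb]
  have hb' : ((π : ℂ) / (b : ℂ)) ≠ 0 := by
    apply div_ne_zero
    · exact_mod_cast Real.pi_ne_zero
    · exact_mod_cast hb.ne'
  have hsq : ((π : ℂ) / (b : ℂ)) ^ (1 / 2 : ℂ) * ((π : ℂ) / (b : ℂ)) ^ (1 / 2 : ℂ)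
      = (π : ℂ) / (b : ℂ) := by
    rw [← Complex.cpow_add _ _ hb']
    norm_num
  have hbne : (b : ℂ) ≠ 0 := by exact_mod_cast hb.ne'
  calc ((π : ℂ) / (b : ℂ)) ^ (1 / 2 : ℂ) * cexp ((u + w) ^ 2 / (4 * (b : ℂ)))
        * (((π : ℂ) / (b : ℂ)) ^ (1 / 2 : ℂ) * cexp ((Complex.I * (u - w)) ^ 2 / (4 * (b : ℂ))))
      = (((π : ℂ) / (b : ℂ)) ^ (1 / 2 : ℂ) * ((π : ℂ) / (b : ℂ)) ^ (1 / 2 : ℂ))
        * (cexp ((u + w) ^ 2 / (4 * (b : ℂ)))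
          * cexp ((Complex.I * (u - w)) ^ 2 / (4 * (b : ℂ)))) := by ring
    _ = ((π : ℂ) / (b : ℂ)) * cexp (u * w / (b : ℂ)) := by
        rw [hsq, ← Complex.exp_add]
        congr 2
        have hI : Complex.I ^ 2 = -1 := Complex.I_sq
        field_simp
        linear_combination ((u - w) ^ 2) * hI


/-- Integrability of the real Gaussian on `ℂ`. -/
theorem integrable_rexp_C894 (b : ℝ) (hb : 0 < b) :
    Integrable (fun v : ℂ => Real.exp (-b * ‖v‖ ^ 2)) := by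
  apply Integrable.of_integral_ne_zero
  rw [GaussianFourier.integral_rexp_neg_mul_sq_norm hb]
  have : 0 < π / b := div_pos Real.pi_pos hb
  positivity

/-- The exponent of the two-variable Gaussian. -/
def expo894 (A₁ A₂ : ℝ) (κ s₁ s₂ : ℂ) (z : ℂ × ℂ) : ℂ :=
  -(A₁ : ℂ) * (z.1 * conj z.1) - (A₂ : ℂ) * (z.2 * conj z.2)
    + 2 * (π : ℂ) * Complex.I * (κ * z.1 * z.2 + conj κ * conj z.1 * conj z.2)
    + 2 * (π : ℂ) * Complex.I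
        * (s₁ * z.1 + conj s₁ * conj z.1 + s₂ * z.2 + conj s₂ * conj z.2)

theorem expo_re894 (A₁ A₂ : ℝ) (κ s₁ s₂ : ℂ) (z : ℂ × ℂ) :
    (expo894 A₁ A₂ κ s₁ s₂ z).re = -A₁ * ‖z.1‖ ^ 2 + -A₂ * ‖z.2‖ ^ 2 := by
  have e1 : κ * z.1 * z.2 + conj κ * conj z.1 * conj z.2
      = ((2 * (κ * z.1 * z.2).re : ℝ) : ℂ) := by
    rw [← Complex.add_conj]
    simp [map_mul]
  have e2 : s₁ * z.1 + conj s₁ * conj z.1 + s₂ * z.2 + conj s₂ * conj z.2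
      = ((2 * (s₁ * z.1).re + 2 * (s₂ * z.2).re : ℝ) : ℂ) := by
    rw [Complex.ofReal_add, ← Complex.add_conj, ← Complex.add_conj]
    simp only [map_mul]
    ring
  unfold expo894
  rw [e1, e2, Complex.mul_conj, Complex.mul_conj, Complex.normSq_eq_norm_sq,
    Complex.normSq_eq_norm_sq]
  simp only [Complex.add_re, Complex.sub_re, Complex.mul_re, Complex.neg_re, Complex.ofReal_re,
    Complex.ofReal_im, Complex.neg_im, Complex.I_re, Complex.I_im, Complex.mul_im,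
    Complex.re_ofNat, Complex.im_ofNat]
  ring

theorem continuous_expo894 (A₁ A₂ : ℝ) (κ s₁ s₂ : ℂ) :
    Continuous (expo894 A₁ A₂ κ s₁ s₂) := by
  unfold expo894
  have hc1 : Continuous fun z : ℂ × ℂ => conj z.1 := Complex.continuous_conj.comp continuous_fst
  have hc2 : Continuous fun z : ℂ × ℂ => conj z.2 := Complex.continuous_conj.comp continuous_snd
  fun_prop

theorem integrable_expo894 (A₁ A₂ : ℝ) (h₁ : 0 < A₁) (h₂ : 0 < A₂) (κ s₁ s₂ : ℂ) :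
    Integrable (fun z : ℂ × ℂ => cexp (expo894 A₁ A₂ κ s₁ s₂ z))
      ((volume : Measure ℂ).prod (volume : Measure ℂ)) := by
  have hg : Integrable (fun z : ℂ × ℂ => Real.exp (-A₁ * ‖z.1‖ ^ 2) * Real.exp (-A₂ * ‖z.2‖ ^ 2))
      ((volume : Measure ℂ).prod (volume : Measure ℂ)) :=
    Integrable.mul_prod (integrable_rexp_C894 A₁ h₁) (integrable_rexp_C894 A₂ h₂)
  refine hg.mono' ?_ ?_
  · exact (Complex.continuous_exp.comp (continuous_expo894 A₁ A₂ κ s₁ s₂)).aestronglyMeasurable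
  · refine Filter.Eventually.of_forall fun z => ?_
    rw [Complex.norm_exp, expo_re894, Real.exp_add]

/-- **The two-variable Gaussian integral in split coordinates.** -/
theorem gaussC2_894 (A₁ A₂ : ℝ) (h₁ : 0 < A₁) (h₂ : 0 < A₂) (κ s₁ s₂ : ℂ) :
    ∫ z : ℂ × ℂ, cexp (expo894 A₁ A₂ κ s₁ s₂ z)
        ∂((volume : Measure ℂ).prod (volume : Measure ℂ))
      = ((π : ℂ) ^ 2 / ((A₁ : ℂ) * (A₂ : ℂ) + 4 * (π : ℂ) ^ 2 * (κ * conj κ)))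
        * cexp (-(4 * (π : ℂ) ^ 2 * ((A₁ : ℂ) * (s₂ * conj s₂) + (A₂ : ℂ) * (s₁ * conj s₁))
              / ((A₁ : ℂ) * (A₂ : ℂ) + 4 * (π : ℂ) ^ 2 * (κ * conj κ)))
            - 8 * (π : ℂ) ^ 3 * Complex.I * (conj κ * s₁ * s₂ + κ * conj s₁ * conj s₂)
              / ((A₁ : ℂ) * (A₂ : ℂ) + 4 * (π : ℂ) ^ 2 * (κ * conj κ))) := by
  rw [integral_prod _ (integrable_expo894 A₁ A₂ h₁ h₂ κ s₁ s₂)]
  -- the inner integral
  have hA₂ : (A₂ : ℂ) ≠ 0 := by exact_mod_cast h₂.ne'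
  have hA₁ : (A₁ : ℂ) ≠ 0 := by exact_mod_cast h₁.ne'
  have hπ : (π : ℂ) ≠ 0 := by exact_mod_cast Real.pi_ne_zero
  set b' : ℝ := A₁ + 4 * π ^ 2 * Complex.normSq κ / A₂ with hb'def
  have hb'pos : 0 < b' := by
    have : 0 ≤ 4 * π ^ 2 * Complex.normSq κ / A₂ := by
      have := Complex.normSq_nonneg κ
      positivity
    linarith
  have hb'C : (b' : ℂ) = (A₁ : ℂ) + 4 * (π : ℂ) ^ 2 * (κ * conj κ) / (A₂ : ℂ) := by
    rw [hb'def, Complex.mul_conj]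
    push_cast
    ring
  have hb'ne : (b' : ℂ) ≠ 0 := by exact_mod_cast hb'pos.ne'
  have hD : (A₁ : ℂ) * (A₂ : ℂ) + 4 * (π : ℂ) ^ 2 * (κ * conj κ) = (A₂ : ℂ) * (b' : ℂ) := by
    rw [hb'C]
    field_simp
  have hDne : (A₁ : ℂ) * (A₂ : ℂ) + 4 * (π : ℂ) ^ 2 * (κ * conj κ) ≠ 0 := by
    rw [hD]
    exact mul_ne_zero hA₂ hb'ne
  have hinner : ∀ z₁ : ℂ,
      ∫ z₂ : ℂ, cexp (expo894 A₁ A₂ κ s₁ s₂ (z₁, z₂))
        = ((π : ℂ) / (A₂ : ℂ)) * cexp (-(4 * (π : ℂ) ^ 2 * (s₂ * conj s₂) / (A₂ : ℂ)))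
          * cexp (-(b' : ℂ) * (z₁ * conj z₁)
            + (2 * (π : ℂ) * Complex.I * s₁ - 4 * (π : ℂ) ^ 2 * κ * conj s₂ / (A₂ : ℂ)) * z₁
            + (2 * (π : ℂ) * Complex.I * conj s₁ - 4 * (π : ℂ) ^ 2 * conj κ * s₂ / (A₂ : ℂ))
                * conj z₁) := by
    intro z₁
    have hsplit : ∀ z₂ : ℂ, cexp (expo894 A₁ A₂ κ s₁ s₂ (z₁, z₂))
        = cexp (-(A₁ : ℂ) * (z₁ * conj z₁)
            + 2 * (π : ℂ) * Complex.I * (s₁ * z₁ + conj s₁ * conj z₁))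
          * cexp (-(A₂ : ℂ) * (z₂ * conj z₂)
            + (2 * (π : ℂ) * Complex.I * (κ * z₁ + s₂)) * z₂
            + (2 * (π : ℂ) * Complex.I * (conj κ * conj z₁ + conj s₂)) * conj z₂) := by
      intro z₂
      rw [← Complex.exp_add]
      congr 1
      unfold expo894
      ring
    simp_rw [hsplit]
    rw [integral_const_mul, gaussC894 A₂ h₂]
    have key : cexp (-(A₁ : ℂ) * (z₁ * conj z₁)
            + 2 * (π : ℂ) * Complex.I * (s₁ * z₁ + conj s₁ * conj z₁))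
          * cexp ((2 * (π : ℂ) * Complex.I * (κ * z₁ + s₂))
            * (2 * (π : ℂ) * Complex.I * (conj κ * conj z₁ + conj s₂)) / (A₂ : ℂ))
        = cexp (-(4 * (π : ℂ) ^ 2 * (s₂ * conj s₂) / (A₂ : ℂ)))
          * cexp (-(b' : ℂ) * (z₁ * conj z₁)
            + (2 * (π : ℂ) * Complex.I * s₁ - 4 * (π : ℂ) ^ 2 * κ * conj s₂ / (A₂ : ℂ)) * z₁
            + (2 * (π : ℂ) * Complex.I * conj s₁ - 4 * (π : ℂ) ^ 2 * conj κ * s₂ / (A₂ : ℂ))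
                * conj z₁) := by
      rw [← Complex.exp_add, ← Complex.exp_add]
      congr 1
      rw [hb'C]
      have hI : Complex.I ^ 2 = -1 := Complex.I_sq
      field_simp
      linear_combination (4 * (π : ℂ) ^ 2 * (κ * z₁ + s₂) * (conj κ * conj z₁ + conj s₂)) * hI
    linear_combination ((π : ℂ) / (A₂ : ℂ)) * key
  simp_rw [hinner]
  rw [integral_const_mul, gaussC894 b' hb'pos]
  rw [hD]
  have hI : Complex.I ^ 2 = -1 := Complex.I_sq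
  have hfac : (π : ℂ) / (A₂ : ℂ) * cexp (-(4 * (π : ℂ) ^ 2 * (s₂ * conj s₂) / (A₂ : ℂ)))
        * ((π : ℂ) / (b' : ℂ) * cexp
          ((2 * (π : ℂ) * Complex.I * s₁ - 4 * (π : ℂ) ^ 2 * κ * conj s₂ / (A₂ : ℂ))
            * (2 * (π : ℂ) * Complex.I * conj s₁ - 4 * (π : ℂ) ^ 2 * conj κ * s₂ / (A₂ : ℂ))
            / (b' : ℂ)))
      = ((π : ℂ) ^ 2 / ((A₂ : ℂ) * (b' : ℂ)))
        * (cexp (-(4 * (π : ℂ) ^ 2 * (s₂ * conj s₂) / (A₂ : ℂ)))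
          * cexp ((2 * (π : ℂ) * Complex.I * s₁ - 4 * (π : ℂ) ^ 2 * κ * conj s₂ / (A₂ : ℂ))
            * (2 * (π : ℂ) * Complex.I * conj s₁ - 4 * (π : ℂ) ^ 2 * conj κ * s₂ / (A₂ : ℂ))
            / (b' : ℂ))) := by
    field_simp
  rw [hfac, ← Complex.exp_add]
  congr 2
  have hb'A : (A₂ : ℂ) * (b' : ℂ) = (A₁ : ℂ) * (A₂ : ℂ) + 4 * (π : ℂ) ^ 2 * (κ * conj κ) := hD.symm
  field_simp
  linear_combination (-4 * s₂ * conj s₂) * hb'A + (4 * (A₂ : ℂ) ^ 2 * s₁ * conj s₁) * hI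


/-! ## The change of variables `y ↦ (y₁ + ω₁ y₂, y₁ + ω₂ y₂)` -/

/-- The split coordinates, as a `ℂ`-linear map. -/
def splitMap894 (ω₁ ω₂ : ℂ) : (ℂ × ℂ) →ₗ[ℂ] (ℂ × ℂ) :=
  (LinearMap.fst ℂ ℂ ℂ + ω₁ • LinearMap.snd ℂ ℂ ℂ).prod
    (LinearMap.fst ℂ ℂ ℂ + ω₂ • LinearMap.snd ℂ ℂ ℂ)

@[simp]
theorem splitMap_apply894 (ω₁ ω₂ : ℂ) (y : ℂ × ℂ) :
    splitMap894 ω₁ ω₂ y = (y.1 + ω₁ * y.2, y.1 + ω₂ * y.2) := by
  simp [splitMap894]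

theorem det_splitMap894 (ω₁ ω₂ : ℂ) : LinearMap.det (splitMap894 ω₁ ω₂) = ω₂ - ω₁ := by
  rw [← LinearMap.det_toMatrix (Module.Basis.finTwoProd ℂ), Matrix.det_fin_two]
  simp [LinearMap.toMatrix_apply, Module.Basis.finTwoProd]

theorem det_splitMapR894 (ω₁ ω₂ : ℂ) :
    LinearMap.det ((splitMap894 ω₁ ω₂).restrictScalars ℝ) = ‖ω₂ - ω₁‖ ^ 2 := by
  rw [LinearMap.det_restrictScalars, det_splitMap894, Algebra.norm_complex_apply,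
    Complex.normSq_eq_norm_sq]

theorem map_splitMap894 (ω₁ ω₂ : ℂ) (hω : ω₁ ≠ ω₂) :
    Measure.map (fun y : ℂ × ℂ => (y.1 + ω₁ * y.2, y.1 + ω₂ * y.2))
        ((volume : Measure ℂ).prod (volume : Measure ℂ))
      = ENNReal.ofReal ((‖ω₂ - ω₁‖ ^ 2)⁻¹) • ((volume : Measure ℂ).prod (volume : Measure ℂ)) := by
  have hpos : 0 < ‖ω₂ - ω₁‖ ^ 2 := by
    have : ω₂ - ω₁ ≠ 0 := sub_ne_zero.mpr (Ne.symm hω)
    positivity
  have hdet : LinearMap.det ((splitMap894 ω₁ ω₂).restrictScalars ℝ) ≠ 0 := by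
    rw [det_splitMapR894]
    exact hpos.ne'
  have h := Measure.map_linearMap_addHaar_eq_smul_addHaar
    ((volume : Measure ℂ).prod (volume : Measure ℂ)) hdet
  rw [det_splitMapR894, abs_of_pos (inv_pos.mpr hpos)] at h
  rw [← h]
  congr 1

/-- **The change of variables** for a continuous integrand. -/
theorem integral_split894 (ω₁ ω₂ : ℂ) (hω : ω₁ ≠ ω₂) (Φ : ℂ × ℂ → ℂ) (hΦ : Continuous Φ) :
    ∫ y : ℂ × ℂ, Φ (y.1 + ω₁ * y.2, y.1 + ω₂ * y.2)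
        ∂((volume : Measure ℂ).prod (volume : Measure ℂ))
      = (((‖ω₂ - ω₁‖ ^ 2)⁻¹ : ℝ) : ℂ)
        * ∫ z : ℂ × ℂ, Φ z ∂((volume : Measure ℂ).prod (volume : Measure ℂ)) := by
  have hL : Continuous fun y : ℂ × ℂ => (y.1 + ω₁ * y.2, y.1 + ω₂ * y.2) := by fun_prop
  have h := integral_map (μ := (volume : Measure ℂ).prod (volume : Measure ℂ))
    hL.aemeasurable (f := Φ) hΦ.aestronglyMeasurable
  rw [← h, map_splitMap894 ω₁ ω₂ hω, integral_smul_measure]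
  have hpos : 0 ≤ (‖ω₂ - ω₁‖ ^ 2)⁻¹ := by positivity
  rw [ENNReal.toReal_ofReal hpos]
  rfl


/-! ## The core identity of the Weyl formula -/

/-- The exponent of the closed form, in the shape of `expo894`. -/
theorem expo_bridge894 (c l₁ l₂ B : ℂ) (N : ℝ) (hN : N ≠ 0) (z Z : ℂ × ℂ) :
    (((-(2 * π * ‖c‖ * (‖l₂ * z.1‖ ^ 2 + ‖l₁ * z.2‖ ^ 2) / N) : ℝ) : ℂ)
        + 4 * (π : ℂ) * Complex.I * (((c * B * (z.1 * z.2)).re / N : ℝ) : ℂ))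
      + 4 * (π : ℂ) * Complex.I * (((c * (Z.1 * z.2 + z.1 * Z.2)).re : ℝ) : ℂ)
    = expo894 (2 * π * ‖c‖ * ‖l₂‖ ^ 2 / N) (2 * π * ‖c‖ * ‖l₁‖ ^ 2 / N) (c * B / (N : ℂ))
        (c * Z.2) (c * Z.1) z := by
  have hNC : (N : ℂ) ≠ 0 := by exact_mod_cast hN
  unfold expo894
  rw [norm_mul, norm_mul, mul_pow, mul_pow]
  push_cast
  rw [Complex.re_eq_add_conj, Complex.re_eq_add_conj, ← Complex.mul_conj' l₁,
    ← Complex.mul_conj' l₂, ← Complex.mul_conj' z.1, ← Complex.mul_conj' z.2]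
  simp only [map_mul, map_add, map_div₀, Complex.conj_ofReal]
  field_simp
  ring

theorem weyl_core894 (c ω₁ ω₂ : ℂ) (hc : c ≠ 0) (hω : ω₁ ≠ ω₂) (l₁ l₂ B : ℂ) (N M : ℝ)
    (hl₁ : l₁ ≠ 0) (hl₂ : l₂ ≠ 0) (hN : 0 < N) (hM : 0 < M)
    (hMN : M * N = ‖B‖ ^ 2 + ‖l₁ * l₂‖ ^ 2) (ξ : ℂ × ℂ) :
    ((‖l₁ * l₂‖ / M : ℝ) : ℂ) *
        cexp (((-(2 * π * ‖c‖ *
            (‖l₂ * (ξ.1 + ω₁ * ξ.2)‖ ^ 2 + ‖l₁ * (ξ.1 + ω₂ * ξ.2)‖ ^ 2) / M) : ℝ) : ℂ)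
          + 4 * (π : ℂ) * Complex.I *
            (((c * (-conj B) * ((ξ.1 + ω₁ * ξ.2) * (ξ.1 + ω₂ * ξ.2))).re / M : ℝ) : ℂ))
      = ((4 * ‖c‖ ^ 2 * ‖ω₁ - ω₂‖ ^ 2 : ℝ) : ℂ) *
          ∫ y : ℂ × ℂ,
            (((‖l₁ * l₂‖ / N : ℝ) : ℂ) *
              cexp (((-(2 * π * ‖c‖ *
                  (‖l₂ * (y.1 + ω₁ * y.2)‖ ^ 2 + ‖l₁ * (y.1 + ω₂ * y.2)‖ ^ 2) / N) : ℝ) : ℂ)
                + 4 * (π : ℂ) * Complex.I *
                  (((c * B * ((y.1 + ω₁ * y.2) * (y.1 + ω₂ * y.2))).re / N : ℝ) : ℂ)))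
              * cexp (4 * (π : ℂ) * Complex.I *
                  (((c * ((ξ.1 + ω₁ * ξ.2) * (y.1 + ω₂ * y.2)
                      + (y.1 + ω₁ * y.2) * (ξ.1 + ω₂ * ξ.2))).re : ℝ) : ℂ))
            ∂((volume : Measure ℂ).prod (volume : Measure ℂ)) := by
  have hcn : 0 < ‖c‖ := norm_pos_iff.mpr hc
  have hl₁n : 0 < ‖l₁‖ := norm_pos_iff.mpr hl₁
  have hl₂n : 0 < ‖l₂‖ := norm_pos_iff.mpr hl₂
  set A₁ : ℝ := 2 * π * ‖c‖ * ‖l₂‖ ^ 2 / N with hA₁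
  set A₂ : ℝ := 2 * π * ‖c‖ * ‖l₁‖ ^ 2 / N with hA₂
  have hA₁pos : 0 < A₁ := by
    have := Real.pi_pos
    positivity
  have hA₂pos : 0 < A₂ := by
    have := Real.pi_pos
    positivity
  set κ : ℂ := c * B / (N : ℂ) with hκ
  set s₁ : ℂ := c * (ξ.1 + ω₂ * ξ.2) with hs₁
  set s₂ : ℂ := c * (ξ.1 + ω₁ * ξ.2) with hs₂
  -- the integrand in split coordinates
  have hint : ∀ y : ℂ × ℂ,
      (((‖l₁ * l₂‖ / N : ℝ) : ℂ) *
              cexp (((-(2 * π * ‖c‖ *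
                  (‖l₂ * (y.1 + ω₁ * y.2)‖ ^ 2 + ‖l₁ * (y.1 + ω₂ * y.2)‖ ^ 2) / N) : ℝ) : ℂ)
                + 4 * (π : ℂ) * Complex.I *
                  (((c * B * ((y.1 + ω₁ * y.2) * (y.1 + ω₂ * y.2))).re / N : ℝ) : ℂ)))
              * cexp (4 * (π : ℂ) * Complex.I *
                  (((c * ((ξ.1 + ω₁ * ξ.2) * (y.1 + ω₂ * y.2)
                      + (y.1 + ω₁ * y.2) * (ξ.1 + ω₂ * ξ.2))).re : ℝ) : ℂ))
        = (fun z : ℂ × ℂ => ((‖l₁ * l₂‖ / N : ℝ) : ℂ) * cexp (expo894 A₁ A₂ κ s₁ s₂ z))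
            (y.1 + ω₁ * y.2, y.1 + ω₂ * y.2) := by
    intro y
    have h := expo_bridge894 c l₁ l₂ B N hN.ne' (y.1 + ω₁ * y.2, y.1 + ω₂ * y.2)
      (ξ.1 + ω₁ * ξ.2, ξ.1 + ω₂ * ξ.2)
    show _ = ((‖l₁ * l₂‖ / N : ℝ) : ℂ)
      * cexp (expo894 A₁ A₂ κ s₁ s₂ (y.1 + ω₁ * y.2, y.1 + ω₂ * y.2))
    rw [← h, mul_assoc, ← Complex.exp_add]
  simp_rw [hint]
  have hΦ : Continuous fun z : ℂ × ℂ =>
      ((‖l₁ * l₂‖ / N : ℝ) : ℂ) * cexp (expo894 A₁ A₂ κ s₁ s₂ z) :=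
    continuous_const.mul (Complex.continuous_exp.comp (continuous_expo894 A₁ A₂ κ s₁ s₂))
  rw [integral_split894 ω₁ ω₂ hω _ hΦ, integral_const_mul, gaussC2_894 A₁ A₂ hA₁pos hA₂pos]
  -- the algebra
  have hNC : (N : ℂ) ≠ 0 := by exact_mod_cast hN.ne'
  have hMC : (M : ℂ) ≠ 0 := by exact_mod_cast hM.ne'
  have hcC : (‖c‖ : ℂ) ≠ 0 := by exact_mod_cast hcn.ne'
  have hπ : (π : ℂ) ≠ 0 := by exact_mod_cast Real.pi_ne_zero
  have hcc : c * conj c = (‖c‖ : ℂ) ^ 2 := Complex.mul_conj' c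
  have hBB : B * conj B = (‖B‖ : ℂ) ^ 2 := Complex.mul_conj' B
  have hMNC : (M : ℂ) * (N : ℂ) = (‖B‖ : ℂ) ^ 2 + (‖l₁‖ : ℂ) ^ 2 * (‖l₂‖ : ℂ) ^ 2 := by
    have h : ((M * N : ℝ) : ℂ) = ((‖B‖ ^ 2 + ‖l₁ * l₂‖ ^ 2 : ℝ) : ℂ) := by rw [hMN]
    rw [norm_mul, mul_pow] at h
    exact_mod_cast h
  have hωn : (‖ω₂ - ω₁‖ : ℂ) ≠ 0 := by
    have : ω₂ - ω₁ ≠ 0 := sub_ne_zero.mpr (Ne.symm hω)
    exact_mod_cast (norm_pos_iff.mpr this).ne'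
  have hκc : conj κ = conj c * conj B / (N : ℂ) := by
    rw [hκ]
    simp only [map_mul, map_div₀, Complex.conj_ofReal]
  have hD : (A₁ : ℂ) * (A₂ : ℂ) + 4 * (π : ℂ) ^ 2 * (κ * conj κ)
      = 4 * (π : ℂ) ^ 2 * (‖c‖ : ℂ) ^ 2 * (M : ℂ) / (N : ℂ) := by
    rw [hκc, hκ, hA₁, hA₂]
    push_cast
    field_simp
    linear_combination (4 * (‖c‖ : ℂ) ^ 2) * hMNC.symm + (4 * B * conj B) * hcc
      + (4 * (‖c‖ : ℂ) ^ 2) * hBB
  rw [hD, norm_sub_rev ω₁ ω₂]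
  have hpre : ((4 * ‖c‖ ^ 2 * ‖ω₂ - ω₁‖ ^ 2 : ℝ) : ℂ)
      * ((((‖ω₂ - ω₁‖ ^ 2)⁻¹ : ℝ) : ℂ)
        * (((‖l₁ * l₂‖ / N : ℝ) : ℂ)
          * ((π : ℂ) ^ 2 / (4 * (π : ℂ) ^ 2 * (‖c‖ : ℂ) ^ 2 * (M : ℂ) / (N : ℂ)) * cexp
            (-(4 * (π : ℂ) ^ 2 * ((A₁ : ℂ) * (s₂ * conj s₂) + (A₂ : ℂ) * (s₁ * conj s₁))
                / (4 * (π : ℂ) ^ 2 * (‖c‖ : ℂ) ^ 2 * (M : ℂ) / (N : ℂ)))
              - 8 * (π : ℂ) ^ 3 * Complex.I * (conj κ * s₁ * s₂ + κ * conj s₁ * conj s₂)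
                / (4 * (π : ℂ) ^ 2 * (‖c‖ : ℂ) ^ 2 * (M : ℂ) / (N : ℂ))))))
      = ((‖l₁ * l₂‖ / M : ℝ) : ℂ) * cexp
            (-(4 * (π : ℂ) ^ 2 * ((A₁ : ℂ) * (s₂ * conj s₂) + (A₂ : ℂ) * (s₁ * conj s₁))
                / (4 * (π : ℂ) ^ 2 * (‖c‖ : ℂ) ^ 2 * (M : ℂ) / (N : ℂ)))
              - 8 * (π : ℂ) ^ 3 * Complex.I * (conj κ * s₁ * s₂ + κ * conj s₁ * conj s₂)
                / (4 * (π : ℂ) ^ 2 * (‖c‖ : ℂ) ^ 2 * (M : ℂ) / (N : ℂ))) := by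
    push_cast
    field_simp
  rw [hpre]
  congr 2
  rw [hκc, hκ, hA₁, hA₂, hs₁, hs₂, norm_mul, norm_mul, mul_pow, mul_pow]
  push_cast
  rw [Complex.re_eq_add_conj, ← Complex.mul_conj' l₁, ← Complex.mul_conj' l₂,
    ← Complex.mul_conj' (ξ.1 + ω₁ * ξ.2), ← Complex.mul_conj' (ξ.1 + ω₂ * ξ.2)]
  simp only [map_mul, map_add, map_neg, Complex.conj_conj]
  field_simp
  rw [← hcc]
  ring

end Fermat.Agent.LT.A2.H894

end
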