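import Fermat.Agent.LT.A2.H798.CpxSpec
import Fermat.Agent.LT.A2.H894.WeylGauss

/-!
# Row LT, tower A2, station A2.03.1.1.10, leaf CX.04 `CX798.WeylC` (helper894)

OFF-MAIN.  `weylC894 : CX798.WeylC`, VERBATIM against helper798@5f07fac26
`Fermat/Agent/LT/A2/H798/CpxSpec.lean` (sha256 8ca2dc507058b836).  The analysis is in
`WeylGauss.lean` (Mathlib only): the complex Gaussian integral `gaussC894`, the two-variable
Gaussian in split coordinates `gaussC2_894`, the change of variables `integral_split894`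
and the core identity `weyl_core894`.
-/

set_option autoImplicit false

open MeasureTheory Complex
open scoped ComplexConjugate Real

noncomputable section

namespace Fermat.Agent.LT.A2.H894

open Fermat.Agent.LT.A2 Fermat.Agent.LT.A2.WX467 Fermat.Agent.LT.A2.CX798

theorem rowN_weyl894 (g : Matrix (Fin 2) (Fin 2) ℂ) :
    rowN (!![0, 1; -1, 0] * g) = ‖g 0 0‖ ^ 2 + ‖g 0 1‖ ^ 2 := by
  simp [rowN, Matrix.mul_apply, Fin.sum_univ_two]

theorem rowB_weyl894 (g : Matrix (Fin 2) (Fin 2) ℂ) :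
    rowB (!![0, 1; -1, 0] * g) = -conj (rowB g) := by
  simp [rowB, Matrix.mul_apply, Fin.sum_univ_two]
  ring

/-- Lagrange's identity for the rows of `g`. -/
theorem lagrange894 (g : Matrix (Fin 2) (Fin 2) ℂ) :
    (‖g 0 0‖ ^ 2 + ‖g 0 1‖ ^ 2) * rowN g = ‖rowB g‖ ^ 2 + ‖g.det‖ ^ 2 := by
  apply Complex.ofReal_injective
  unfold rowN rowB
  push_cast
  rw [← Complex.mul_conj' (g 0 0), ← Complex.mul_conj' (g 0 1), ← Complex.mul_conj' (g 1 0),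
    ← Complex.mul_conj' (g 1 1), ← Complex.mul_conj', ← Complex.mul_conj', Matrix.det_fin_two]
  simp only [map_mul, map_add, map_sub, Complex.conj_conj]
  ring

theorem bfL_split894 (ω₁ ω₂ : ℂ) (ξ y : ℂ × ℂ) :
    bfL (ω₁ + ω₂) (ω₁ * ω₂) ξ y
      = (ξ.1 + ω₁ * ξ.2) * (y.1 + ω₂ * y.2) + (y.1 + ω₁ * y.2) * (ξ.1 + ω₂ * ξ.2) := by
  simp only [bfL, qfL, Prod.fst_add, Prod.snd_add]
  ring

/-- **CX.04 WEYL.** -/
theorem weylC894 : CX798.WeylC := by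
  intro c ω₁ ω₂ hc hω g m ξ hAdm
  obtain ⟨⟨a, b, hm⟩, hdet, hdetne⟩ := hAdm
  have hdetm : m.det = lam ω₁ m * lam ω₂ m := by
    rw [hm]
    simp only [lam, torMat, Matrix.det_fin_two_of, Matrix.of_apply, Matrix.cons_val', Matrix.cons_val_zero,
      Matrix.cons_val_one, Matrix.cons_val_fin_one]
    ring
  have hll : lam ω₁ m * lam ω₂ m ≠ 0 := by
    rw [← hdetm]
    exact hdetne
  have hl₁ : lam ω₁ m ≠ 0 := left_ne_zero_of_mul hll
  have hl₂ : lam ω₂ m ≠ 0 := right_ne_zero_of_mul hll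
  have hlag := lagrange894 g
  rw [hdet, hdetm] at hlag
  have hNnn : 0 ≤ rowN g := by
    unfold rowN
    positivity
  have hMnn : 0 ≤ ‖g 0 0‖ ^ 2 + ‖g 0 1‖ ^ 2 := by positivity
  have hpos : 0 < (‖g 0 0‖ ^ 2 + ‖g 0 1‖ ^ 2) * rowN g := by
    rw [hlag]
    have : 0 < ‖lam ω₁ m * lam ω₂ m‖ := norm_pos_iff.mpr hll
    positivity
  have hN : 0 < rowN g := by
    rcases hNnn.lt_or_eq with h | h
    · exact h
    · rw [← h, mul_zero] at hpos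
      exact absurd hpos (lt_irrefl _)
  have hM : 0 < ‖g 0 0‖ ^ 2 + ‖g 0 1‖ ^ 2 := by
    rcases hMnn.lt_or_eq with h | h
    · exact h
    · rw [← h, zero_mul] at hpos
      exact absurd hpos (lt_irrefl _)
  have key := weyl_core894 c ω₁ ω₂ hc hω (lam ω₁ m) (lam ω₂ m) (rowB g) (rowN g)
    (‖g 0 0‖ ^ 2 + ‖g 0 1‖ ^ 2) hl₁ hl₂ hN hM hlag ξ
  have hL : FC c ω₁ ω₂ (!![0, 1; -1, 0] * g) m ξ
      = ((‖lam ω₁ m * lam ω₂ m‖ / (‖g 0 0‖ ^ 2 + ‖g 0 1‖ ^ 2) : ℝ) : ℂ) *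
        cexp (((-(2 * π * ‖c‖ *
            (‖lam ω₂ m * (ξ.1 + ω₁ * ξ.2)‖ ^ 2 + ‖lam ω₁ m * (ξ.1 + ω₂ * ξ.2)‖ ^ 2)
              / (‖g 0 0‖ ^ 2 + ‖g 0 1‖ ^ 2)) : ℝ) : ℂ)
          + 4 * (π : ℂ) * Complex.I *
            (((c * (-conj (rowB g)) * ((ξ.1 + ω₁ * ξ.2) * (ξ.1 + ω₂ * ξ.2))).re
              / (‖g 0 0‖ ^ 2 + ‖g 0 1‖ ^ 2) : ℝ) : ℂ)) := by
    unfold FC
    rw [rowN_weyl894, rowB_weyl894]
  rw [hL, key]
  unfold gamC intL volC
  congr 1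
  show ∫ y : ℂ × ℂ, _ ∂((volume : Measure ℂ).prod (volume : Measure ℂ))
    = ∫ y : ℂ × ℂ, _ ∂((volume : Measure ℂ).prod (volume : Measure ℂ))
  congr 1
  funext y
  unfold FC psiC
  rw [bfL_split894]

end Fermat.Agent.LT.A2.H894

end
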